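import Fermat.Agent.S24.Expand
import Fermat.Agent.S24.HolB

set_option autoImplicit false

/-!
# C24: the twin of the `ℚ̄`-dependent part of S24 with constant field `ℂ`

Mechanical copy (`Kb ↦ Kc = ℂ`, `iotaK ↦ iotaC = id`) of the parts of `Fermat/Agent/S24` which mention
the constant field.  Everything which does not mention it is reused from `Fermat.Agent.S24`.
-/

open UpperHalfPlane ModularForm EisensteinSeries CongruenceSubgroup
open scoped MatrixGroups Manifold

namespace Fermat.Agent.C24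

open Fermat.Agent.S24

/-- the constant field: an opaque copy of `ℂ` (a `def`, so that instance problems never unfold the
field structure of `ℂ`). -/
def Kc : Type := ℂ

noncomputable instance : Field Kc := inferInstanceAs (Field ℂ)
instance : IsAlgClosed Kc := inferInstanceAs (IsAlgClosed ℂ)
instance : CharZero Kc := inferInstanceAs (CharZero ℂ)

/-- the identity embedding. -/
noncomputable def iotaC : Kc →+* ℂ := RingHom.id ℂ

/-- the inverse of `iotaC`. -/
noncomputable def iotaCinv : ℂ →+* Kc := RingHom.id ℂ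

theorem iotaC_iotaCinv (x : ℂ) : iotaC (iotaCinv x) = x := rfl

theorem iotaCinv_iotaC (x : Kc) : iotaCinv (iotaC x) = x := rfl

/-- the function field of `X₀(N)` over `ℂ`, inside `ℂ((q))`. -/
noncomputable abbrev mffC (N : ℕ) : IntermediateField Kc (LaurentSeries Kc) :=
  ModularCurve.laurentBaseChange Kc (ModularCurve.modularFunctionFieldFull N)

theorem mem_range_iotaC (x : ℂ) : x ∈ iotaC.range := ⟨iotaCinv x, rfl⟩

/-- constants from `ℚ̄`. -/
noncomputable def constK : Kc →+* (ℍ → ℂ) := (Pi.constRingHom ℍ ℂ).comp iotaC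

@[simp] theorem constK_apply (a : Kc) (z : ℍ) : constK a z = iotaC a := rfl

theorem act_constK (g : SL(2, ℤ)) (a : Kc) : act g (constK a) = constK a := rfl

/-- generators of `Btil`. -/
def btilGens (N : ℕ) : Set (ℍ → ℂ) :=
  Set.range constK ∪ {f | ∃ (g : SL(2, ℤ)) (d : ℕ), d ∣ N ∧ f = act g (jd d)}

/-- the ring generated over `ℚ̄` by all `SL(2,ℤ)`-conjugates of the `j (d z)`, `d ∣ N`. -/
def Btil (N : ℕ) : Subring (ℍ → ℂ) := Subring.closure (btilGens N)

theorem constK_mem_Btil (N : ℕ) (a : Kc) : constK a ∈ Btil N :=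
  Subring.subset_closure (Or.inl ⟨a, rfl⟩)

theorem act_jd_mem_Btil {N d : ℕ} (g : SL(2, ℤ)) (hd : d ∣ N) : act g (jd d) ∈ Btil N :=
  Subring.subset_closure (Or.inr ⟨g, d, hd, rfl⟩)

theorem jd_mem_Btil {N d : ℕ} (hd : d ∣ N) : jd d ∈ Btil N := by
  have := act_jd_mem_Btil 1 hd
  rwa [act_one] at this

theorem act_mem_Btil {N : ℕ} (g : SL(2, ℤ)) {b : ℍ → ℂ} (hb : b ∈ Btil N) : act g b ∈ Btil N := by
  induction hb using Subring.closure_induction with
  | mem x hx =>
    rcases hx with ⟨a, rfl⟩ | ⟨h, d, hd, rfl⟩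
    · rw [act_constK]; exact constK_mem_Btil N a
    · rw [← act_mul]; exact act_jd_mem_Btil _ hd
  | zero => simp
  | one => simp
  | add x y _ _ hx hy => rw [map_add]; exact add_mem hx hy
  | neg x _ hx => rw [map_neg]; exact neg_mem hx
  | mul x y _ _ hx hy => rw [map_mul]; exact mul_mem hx hy

/-- the action on `Btil`. -/
noncomputable def actB (N : ℕ) (g : SL(2, ℤ)) : Btil N →+* Btil N :=
  ((act g).comp (Btil N).subtype).codRestrict (Btil N) fun b => act_mem_Btil g b.2

@[simp] theorem coe_actB (N : ℕ) (g : SL(2, ℤ)) (b : Btil N) :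
    ((actB N g b : Btil N) : ℍ → ℂ) = act g b := rfl

/-- the `q`-series `j(q^d)` with coefficients in `ℚ̄`. -/
noncomputable def Jser (d : ℕ) : LaurentSeries Kc :=
  if h : d = 0 then 0 else haveI : NeZero d := ⟨h⟩; ModularCurve.jqNModC Kc d

/-- the generators of the function field. -/
def fGens (N : ℕ) : Set (LaurentSeries Kc) := {y | ∃ d : ℕ, d ∣ N ∧ y = Jser d}

/-- `ℚ̄[j(q^d) : d ∣ N]`. -/
noncomputable def A0 (N : ℕ) : Subalgebra Kc (LaurentSeries Kc) := Algebra.adjoin Kc (fGens N)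

theorem Jser_mem_A0 {N d : ℕ} (hd : d ∣ N) : Jser d ∈ A0 N :=
  Algebra.subset_adjoin ⟨d, hd, rfl⟩

/-- the function field of `X₀(N)` over `ℚ̄`. -/
abbrev FN (N : ℕ) : Type := ↥(mffC N)

theorem Btil_le_holSub (N : ℕ) [NeZero N] : Btil N ≤ holSub := by
  rw [Btil, Subring.closure_le]
  rintro f (⟨a, rfl⟩ | ⟨g, d, hd, rfl⟩)
  · exact mdifferentiable_const
  · have hd0 : 0 < d := Nat.pos_of_dvd_of_pos hd (Nat.pos_of_ne_zero (NeZero.ne N))
    exact holB_mdiff_act (holB_mdiff_pre mdiff_jFun 0 hd0 one_pos) g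

theorem twist_mem_range_coeffMap_iff (f : LaurentSeries ℂ) :
    f ∈ (ModularCurve.coeffMap iotaC).range ↔ ∀ n, f.coeff n ∈ iotaC.range := by
  constructor
  · rintro ⟨g, rfl⟩ n
    exact ⟨g.coeff n, rfl⟩
  · intro h
    choose c hc using h
    have hsupp : Function.support c ⊆ f.support := by
      intro n hn
      rw [HahnSeries.mem_support, ← hc n]
      exact fun h0 => hn ((map_eq_zero iotaC).mp h0)
    refine ⟨⟨c, f.isPWO_support.mono hsupp⟩, ?_⟩
    ext n
    rw [ModularCurve.coeffMap_coeff]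
    exact hc n

/-- if `u` is algebraic, `twist u` preserves series with coefficients in `ℚ̄`. -/
theorem twist_mem_range (u : ℂˣ) (hu : (u : ℂ) ∈ iotaC.range) (f : LaurentSeries ℂ)
    (hf : f ∈ (ModularCurve.coeffMap iotaC).range) :
    twist u f ∈ (ModularCurve.coeffMap iotaC).range := by
  rw [twist_mem_range_coeffMap_iff] at hf ⊢
  intro n
  rw [twist_coeff]
  obtain ⟨a, ha⟩ := hu
  obtain ⟨b, hb⟩ := hf n
  exact ⟨a ^ n * b, by rw [map_mul, map_zpow₀, ha, hb]⟩

/-- `qExpand` preserves series with coefficients in `ℚ̄`. -/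
theorem qExpand_mem_range (k : ℕ) [NeZero k] (f : LaurentSeries ℂ)
    (hf : f ∈ (ModularCurve.coeffMap iotaC).range) :
    ModularCurve.qExpand ℂ k f ∈ (ModularCurve.coeffMap iotaC).range := by
  rw [twist_mem_range_coeffMap_iff] at hf ⊢
  intro n
  by_cases hn : (k : ℤ) ∣ n
  · obtain ⟨m, rfl⟩ := hn
    rw [ModularCurve.qExpand_coeff_mul]
    exact hf m
  · rw [ModularCurve.qExpand_coeff_of_not_dvd k f hn]
    exact zero_mem _

theorem rootU_mem_range (δ : ℕ) (b : ℤ) : ((rootU δ b : ℂˣ) : ℂ) ∈ iotaC.range :=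
  mem_range_iotaC _

theorem Btil_le_perSub (N : ℕ) [NeZero N] : Btil N ≤ perSub N := by
  rw [Btil, Subring.closure_le]
  rintro f (⟨c, rfl⟩ | ⟨g, d, hd, rfl⟩)
  · exact (isBd_const N (iotaC c)).isPer
  · have hN : 0 < N := Nat.pos_of_ne_zero (NeZero.ne N)
    have hd0 : 0 < d := Nat.pos_of_dvd_of_pos hd hN
    obtain ⟨a, b, δ, hab, h, -⟩ := act_jd_eq_pre g hd0
    have ha : 0 < a := Nat.pos_of_ne_zero (by rintro rfl; simp at hab; omega)
    have hδ : 0 < δ := Nat.pos_of_ne_zero (by rintro rfl; simp at hab; omega)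
    show act g (jd d) ∈ perSub N
    rw [h]
    exact pre_jFun_mem_perSub ha hδ ((Dvd.intro_left a hab).trans hd)

theorem expandC_jq_mem_range :
    ModularCurve.jqModC ℂ ∈ (ModularCurve.coeffMap iotaC).range :=
  ⟨ModularCurve.jqModC Kc, ModularCurve.map_jqModC iotaC⟩

theorem TInf_Btil_mem_range (N : ℕ) [NeZero N] (b : ℍ → ℂ) (hb : b ∈ Btil N) :
    TInf N ⟨b, Btil_le_perSub N hb⟩ ∈ (ModularCurve.coeffMap iotaC).range := by
  induction hb using Subring.closure_induction with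
  | mem x hx =>
    rcases hx with ⟨c, rfl⟩ | ⟨g, d, hd, rfl⟩
    · have := TInf_const N (iotaC c) (isBd_const N (iotaC c)).isPer
      refine ⟨HahnSeries.C c, ?_⟩
      refine Eq.trans ?_ this.symm
      exact ModularCurve.coeffMap_single iotaC 0 c
    · have hN : 0 < N := Nat.pos_of_ne_zero (NeZero.ne N)
      have hd0 : 0 < d := Nat.pos_of_dvd_of_pos hd hN
      obtain ⟨a, b, δ, hab, h, -⟩ := act_jd_eq_pre g hd0
      have ha : 0 < a := Nat.pos_of_ne_zero (by rintro rfl; simp at hab; omega)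
      have hδ : 0 < δ := Nat.pos_of_ne_zero (by rintro rfl; simp at hab; omega)
      have hδN : δ ∣ N := (Dvd.intro_left a hab).trans hd
      have : NeZero (a * (N / δ)) :=
        ⟨(Nat.mul_pos ha (Nat.div_pos (Nat.le_of_dvd hN hδN) hδ)).ne'⟩
      rw [expandC_TInf_congr N h _ (pre_jFun_mem_perSub ha hδ hδN), TInf_pre_jFun ha hδ hδN]
      exact qExpand_mem_range _ _ (twist_mem_range _ (rootU_mem_range _ _) _ expandC_jq_mem_range)
  | zero =>
    rw [expandC_TInf_congr N rfl _ (perSub N).zero_mem]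
    exact (map_zero (TInf N)).symm ▸ Subring.zero_mem _
  | one =>
    rw [expandC_TInf_congr N rfl _ (perSub N).one_mem]
    exact (map_one (TInf N)).symm ▸ Subring.one_mem _
  | add x y hx hy ihx ihy =>
    have : TInf N ⟨x + y, Btil_le_perSub N (add_mem hx hy)⟩ =
      TInf N ⟨x, Btil_le_perSub N hx⟩ + TInf N ⟨y, Btil_le_perSub N hy⟩ := by
      rw [← map_add]; rfl
    rw [this]; exact add_mem ihx ihy
  | neg x hx ihx =>
    have : TInf N ⟨-x, Btil_le_perSub N (neg_mem hx)⟩ = - TInf N ⟨x, Btil_le_perSub N hx⟩ := by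
      rw [← map_neg]; rfl
    rw [this]; exact neg_mem ihx
  | mul x y hx hy ihx ihy =>
    have : TInf N ⟨x * y, Btil_le_perSub N (mul_mem hx hy)⟩ =
      TInf N ⟨x, Btil_le_perSub N hx⟩ * TInf N ⟨y, Btil_le_perSub N hy⟩ := by
      rw [← map_mul]; rfl
    rw [this]; exact mul_mem ihx ihy

theorem TInf_jd (N : ℕ) [NeZero N] {d : ℕ} (hd : d ∣ N) [NeZero (d * N)] :
    TInf N ⟨jd d, Btil_le_perSub N (jd_mem_Btil hd)⟩ =
      ModularCurve.qExpand ℂ (d * N) (ModularCurve.jqModC ℂ) := by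
  have hN : 0 < N := Nat.pos_of_ne_zero (NeZero.ne N)
  have hd0 : 0 < d := Nat.pos_of_dvd_of_pos hd hN
  have : NeZero (d * (N / 1)) := ⟨by rw [Nat.div_one]; exact NeZero.ne _⟩
  have h := TInf_pre_jFun (N := N) (a := d) (b := 0) (δ := 1) hd0 one_pos (one_dvd N)
  refine Eq.trans h ?_
  have h0 : rootU 1 ((0 : ℕ) : ℤ) = 1 := by rw [Nat.cast_zero]; exact expandC_rootU_zero 1
  rw [h0, twist_one]
  exact ModularCurve.qExpand_congr (by rw [Nat.div_one]) _

/-- the stabiliser of `j (N z)` is `Γ₀(N)`. -/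
theorem mem_Gamma0_of_act_jd_eq (N : ℕ) [NeZero N] (g : SL(2, ℤ)) (h : act g (jd N) = jd N) :
    g ∈ Gamma0 N := by
  have hN : 0 < N := Nat.pos_of_ne_zero (NeZero.ne N)
  obtain ⟨a, b, δ, hab, h1, h2⟩ := act_jd_eq_pre g hN
  have ha : 0 < a := Nat.pos_of_ne_zero (by rintro rfl; simp at hab; omega)
  have hδ : 0 < δ := Nat.pos_of_ne_zero (by rintro rfl; simp at hab; omega)
  have hδN : δ ∣ N := Dvd.intro_left a hab
  have : NeZero (a * (N / δ)) :=
    ⟨(Nat.mul_pos ha (Nat.div_pos (Nat.le_of_dvd hN hδN) hδ)).ne'⟩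
  have : NeZero (N * N) := ⟨(Nat.mul_pos hN hN).ne'⟩
  have h3 : pre a b δ jFun = jd N := h1.symm.trans h
  have h4 := expandC_TInf_congr N h3 (pre_jFun_mem_perSub ha hδ hδN)
    (Btil_le_perSub N (jd_mem_Btil dvd_rfl))
  rw [TInf_pre_jFun ha hδ hδN, TInf_jd N dvd_rfl] at h4
  have h5 := congrArg HahnSeries.order h4
  rw [order_qExpand, order_qExpand, order_twist, expandC_order_jq] at h5
  have h6 : a * (N / δ) = N * N := by
    have : ((a * (N / δ) : ℕ) : ℤ) = ((N * N : ℕ) : ℤ) := by linarith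
    exact_mod_cast this
  have h7 : N / δ = a := by
    rw [← hab]; exact Nat.mul_div_cancel _ hδ
  rw [h7] at h6
  have h8 : a = N := by
    exact Nat.mul_self_inj.mp h6
  apply h2
  rw [h8] at hab
  exact Nat.eq_of_mul_eq_mul_left hN (by rw [hab, mul_one])

end Fermat.Agent.C24
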